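/-
P-S33 (blueprint v2), INTERFACE (X3) between LAYER 2 (Cech coordinates, architect helper33) and
LAYER 3 (order + CP, architect helper41).  Referee: helper22.

`ApproxChart p P X act n` : ONE level `n` of approximate Cech coordinates on the finite group `X`
(in the application `X = K_m`, the Kummer subgroup of `JTors M (p ^ m)`), i.e. ANY `Qbar`-valued lifts
of the canonical classes `tau^(n)(x)` modulo `p ^ n`:

* values in the maximal ideal of `P`;
* inertia-equivariant ONLY modulo `p ^ n P` (this is the uniqueness of the normal form modulo `p ^ n`);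
* the group law is given modulo `p ^ n P` by ONE polynomial vector with coefficients in
  `O^ur = inertiaInt P`, IN THESE coordinates (the coefficient of `a_i` in the normalised cocycle,
  not that coefficient divided by a uniformiser).

`HasApproxCharts` : such charts exist at EVERY level `n`, all of them separating the points of `X`
at one fixed precision `c0` (injectivity of `tau^(c0)`, plus compatibility of the levels modulo
`p ^ c0`).  No field of definition, no compatibility between the levels, no exact equivariance is
asked from Layer 2: Layer 3 picks ONE level `n ≥ 1 + c0 * (|X| ^ 2 - 1) + c0`, replaces the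
coordinates by exactly equivariant ones congruent modulo `p ^ (n - 1)` (Ax's lemma, leaf L3-a) and
runs the one-precision order construction (uniform conductor L3-b, order L3-c, CP L3-d).
-/
import Mathlib
import Fermat.Agent.S56x.Flat.InertiaField

set_option autoImplicit false

noncomputable section

namespace Fermat.Agent.S33x.Iface

open Fermat.Agent.S56x.Flat.InertiaField

local notation "Qbar" => AlgebraicClosure ℚ
local notation "Γℚ" => (AlgebraicClosure ℚ ≃ₐ[ℚ] AlgebraicClosure ℚ)

/-- `x ∈ p ^ n P`. -/
def PowMem (P : ValuationSubring Qbar) (p n : ℕ) (x : Qbar) : Prop :=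
  ∃ w ∈ P, x = (p : Qbar) ^ n * w

/-- One level of approximate coordinates (interface Layer 2 → Layer 3). -/
structure ApproxChart (p : ℕ) (P : ValuationSubring Qbar) (X : Type) [AddCommGroup X]
    (act : Γℚ → X → X) (n : ℕ) where
  /-- number of coordinates (the genus) -/
  g : ℕ
  /-- arbitrary lifts of the canonical coordinates modulo `p ^ n` -/
  coord : X → Fin g → Qbar
  /-- the coordinates lie in the maximal ideal of `P` -/
  coord_mem : ∀ x i, coord x i ∈ P.nonunits
  /-- inertia-equivariance modulo `p ^ n P` -/
  coord_inertia : ∀ σ ∈ P.inertiaSubgroupIn ℚ, ∀ x i,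
    PowMem P p n (coord (act σ x) i - σ (coord x i))
  /-- the group law modulo `p ^ n P`: one polynomial vector over `O^ur` -/
  add_approx : ∃ F : Fin g → MvPolynomial (Fin g ⊕ Fin g) (inertiaInt P),
    ∀ x y i, PowMem P p n
      (coord (x + y) i - MvPolynomial.aeval (Sum.elim (coord x) (coord y)) (F i))

/-- The chart separates the points of `X` at precision `p ^ c0`. -/
def ApproxChart.SepAt {p : ℕ} {P : ValuationSubring Qbar} {X : Type} [AddCommGroup X]
    {act : Γℚ → X → X} {n : ℕ} (C : ApproxChart p P X act n) (c0 : ℕ) : Prop :=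
  ∀ x y : X, x ≠ y → ∃ i, ¬ PowMem P p c0 (C.coord x i - C.coord y i)

/-- What Layer 2 exports for `X = K_m`: charts at every level, separating at one fixed precision. -/
def HasApproxCharts (p : ℕ) (P : ValuationSubring Qbar) (X : Type) [AddCommGroup X]
    (act : Γℚ → X → X) : Prop :=
  ∃ c0 : ℕ, ∀ n : ℕ, ∃ C : ApproxChart p P X act n, C.SepAt c0

/-- What Layer 3 proves from it (statement only): no nonzero subquotient of `X` with trivial
inertia action.  Shape of `S33x/L3/OrderOfCoords.noTriv_of_coords`. -/
def NoTrivOfCharts : Prop :=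
  ∀ (p : ℕ), p.Prime → p ≠ 2 → ∀ (P : ValuationSubring Qbar), P.LiesOverPrime p →
    ∀ (X : Type) [AddCommGroup X] [Finite X] (act : Γℚ → X → X),
      (∀ x, act 1 x = x) →
      (∀ σ ∈ P.inertiaSubgroupIn ℚ, ∀ τ ∈ P.inertiaSubgroupIn ℚ, ∀ x,
        act (σ * τ) x = act σ (act τ x)) →
      (∀ σ ∈ P.inertiaSubgroupIn ℚ, ∀ x y, act σ (x + y) = act σ x + act σ y) →
      (∀ x : X, ∃ m : ℕ, p ^ m • x = 0) →
      HasApproxCharts p P X act →
      ∀ A B : AddSubgroup X, A ≤ B →
        (∀ τ ∈ P.inertiaSubgroupIn ℚ, ∀ a ∈ A, act τ a ∈ A) →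
        (∀ τ ∈ P.inertiaSubgroupIn ℚ, ∀ y ∈ B, act τ y - y ∈ A) → B ≤ A

end Fermat.Agent.S33x.Iface
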